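/-
S15, block A, K6 (`RCase`), second team (helper193).

`RCase N z` from
* K3 (`uN N`, `coe_uN`, `IsCusp0.isDivOf_uN`),
* the `Λ`-calculus (`HasLam`, `Lam/*`),
* the export of A-RED in the shape of `Red.exists_isOne` (here: the hypothesis `NNIsOne N`).

No order of the cuspidal class is used: with `C = (0) - (∞)`, `ℓ k C = div h`, `d = gcd (ℓ k, N - 1)
= ℓ k a + (N - 1) b`, `u = h^a u_N^b` has divisor `d C`, `h = const u^s`, `u_N = const u^m`.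
`Λ(h) = 0` and `ℓ ∤ s` give `Λ(u) = 0`, so `Λ(u_N) = 0`; but `Λ(u_N) = (1 - N) - 24 q + ...`.
-/
import Fermat.Agent.S15.A.Lam.FN
import Fermat.Agent.S15.A.Lam.Eta
import Fermat.Agent.S15.A.Cusp.UNDiv
import Fermat.Agent.S27.RiemannI

set_option autoImplicit false
set_option linter.unusedSectionVars false

noncomputable section

namespace Fermat.Agent.S15.A.K6x

open ModularCurve AlgebraicCurve Fermat.Agent.S24 Fermat.Agent.S27 Fermat.Agent.S37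
  Fermat.Agent.Lib.Theta Fermat.Agent.S24.FF

section Generic

variable {K F : Type*} [Field K] [Field F] [Algebra K F]

theorem isDivOf_mul {D E : Divisor K F} {f g : F} (h : IsDivOf D f) (h' : IsDivOf E g) :
    IsDivOf (D + E) (f * g) :=
  ⟨mul_ne_zero h.1 h'.1, fun v => by rw [Finsupp.add_apply, h.2 v, h'.2 v, v.ord_mul h.1 h'.1]⟩

theorem isDivOf_zpow {D : Divisor K F} {f : F} (h : IsDivOf D f) (n : ℤ) :
    IsDivOf (n • D) (f ^ n) :=
  ⟨zpow_ne_zero n h.1, fun v => by rw [Finsupp.smul_apply, h.2 v, v.ord_zpow, smul_eq_mul]⟩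

theorem isDivOf_inv {D : Divisor K F} {f : F} (h : IsDivOf D f) : IsDivOf (-D) f⁻¹ :=
  ⟨inv_ne_zero h.1, fun v => by rw [Finsupp.neg_apply, h.2 v, v.ord_inv]⟩

theorem exists_const_of_isDivOf [IsAlgClosed K] [CharZero K] [IsFF1 K F] {D : Divisor K F}
    {f g : F} (h : IsDivOf D f) (h' : IsDivOf D g) :
    ∃ c : K, c ≠ 0 ∧ f = algebraMap K F c * g := by
  obtain ⟨c, hc⟩ := eq_algebraMap_of_forall_ord_nonneg (K := K) (f * g⁻¹) (fun v => by
    rw [v.ord_mul h.1 (inv_ne_zero h'.1), v.ord_inv, ← h.2 v, ← h'.2 v, add_neg_cancel])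
  refine ⟨c, ?_, ?_⟩
  · rintro rfl
    rw [map_zero] at hc
    exact mul_ne_zero h.1 (inv_ne_zero h'.1) hc
  · rw [← hc, mul_assoc, inv_mul_cancel₀ h'.1, mul_one]

theorem cls_zsmul {D : Divisor K F} (hD : Divisor.degree D = 0) (n : ℤ) :
    cls (n • D) = n • cls D := by
  have hnat : ∀ m : ℕ, cls (m • D) = m • cls D := by
    intro m
    induction m with
    | zero => rw [zero_nsmul, zero_nsmul, cls_zero]
    | succ m ih =>
      rw [succ_nsmul, succ_nsmul, cls_add (by rw [map_nsmul, hD, smul_zero]) hD, ih]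
  obtain ⟨m, rfl | rfl⟩ := n.eq_nat_or_neg
  · rw [natCast_zsmul, natCast_zsmul, hnat]
  · rw [neg_zsmul, neg_zsmul, natCast_zsmul, natCast_zsmul,
      cls_neg (by rw [map_nsmul, hD, smul_zero]), hnat]

end Generic

section Main

variable {N : ℕ} [NeZero N] {A : ValuationSubring Kbar}

theorem coe_mul_fn (f g : FN N) :
    ((f * g : FN N) : LaurentSeries Kbar) = (f : LaurentSeries Kbar) * (g : LaurentSeries Kbar) :=
  rfl

theorem coe_inv_fn (f : FN N) :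
    ((f⁻¹ : FN N) : LaurentSeries Kbar) = (f : LaurentSeries Kbar)⁻¹ :=
  rfl

theorem coe_zpow_fn (f : FN N) (n : ℤ) :
    ((f ^ n : FN N) : LaurentSeries Kbar) = (f : LaurentSeries Kbar) ^ n :=
  map_zpow₀ (algebraMap (FN N) (LaurentSeries Kbar)) f n

theorem coe_const_fn (c : Kbar) :
    ((algebraMap Kbar (FN N) c : FN N) : LaurentSeries Kbar) = HahnSeries.C c := by
  rw [← Fermat.Agent.GAL.E.scaling_algebraMap]
  rfl

/-- `Λ(u_N) = (1 - N) + 24 Λ(g)`. -/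
theorem hasLam_uN : HasLam A ((uN N : FN N) : LaurentSeries Kbar)
    (HahnSeries.C (((1 - (N : ℤ) : ℤ)) : kk A) + 24 • lamG N A) := by
  rw [coe_uN, uSer, coeffEmb_modularUnitSeries]
  exact (HasLam.single _).mul ((hasLam_gK N A).pow 24)

theorem not_dvd_24 {ℓ : ℕ} (hℓ : ℓ.Prime) (h5 : 5 ≤ ℓ) : ¬ (ℓ : ℤ) ∣ 24 := by
  intro h
  have h1 : ℓ ∣ 2 ^ 3 * 3 := by
    have : (ℓ : ℤ) ∣ ((2 ^ 3 * 3 : ℕ) : ℤ) := by simpa using h
    exact Int.natCast_dvd_natCast.1 this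
  rcases (Nat.Prime.dvd_mul hℓ).1 h1 with h2 | h2
  · have := Nat.le_of_dvd (by norm_num) (hℓ.dvd_of_dvd_pow h2)
    omega
  · have := Nat.le_of_dvd (by norm_num) h2
    omega

/-- `Λ(u_N) ≠ 0` for `ℓ ≥ 5`. -/
theorem not_hasLam_uN_zero {ℓ : ℕ} (hℓ : ℓ.Prime) (h5 : 5 ≤ ℓ) (hA : A.LiesOverPrime ℓ)
    (hN : 1 < N) : ¬ HasLam A ((uN N : FN N) : LaurentSeries Kbar) 0 := by
  intro h
  have h1 := (hasLam_uN (N := N) (A := A)).unique h
  have h2 := congrArg (fun t => HahnSeries.coeff t 1) h1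
  simp only [HahnSeries.coeff_add, HahnSeries.coeff_zero, HahnSeries.coeff_smul,
    (lamG_coeff N A hN).2, HahnSeries.C_apply, HahnSeries.coeff_single_of_ne (one_ne_zero : (1 : ℤ) ≠ 0)] at h2
  have h3 := intCast_ne_zero_of_not_dvd hℓ hA (not_dvd_24 hℓ h5)
  apply h3
  have h4 : ((24 : ℤ) : kk A) = -((24 : ℕ) • (-1 : kk A)) := by
    simp
  rw [h4]
  simpa using h2

/-- The export of A-RED consumed by K6 (the statement of `Red.exists_isOne`). -/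
def NNIsOne (N : ℕ) [NeZero N] : Prop :=
  ∀ ℓ : ℕ, ℓ.Prime → 5 ≤ ℓ → ¬ ℓ ∣ N → ∀ A : ValuationSubring Kbar, A.LiesOverPrime ℓ →
    ∀ x ∈ NN N A, ∃ D : Divisor Kbar (FN N), Divisor.degree D = 0 ∧ x = cls D ∧
      ∀ (m : ℤ) (f : FN N), f ≠ 0 → (∀ v, m * D v = v.ord f) → II.IsOne A N f

/-- **K6.** -/
theorem rCase_of_nnIsOne (hN : 1 < N) {z : Place Kbar (FN N)} (hz : IsCusp0 N z)
    (H : NNIsOne N) : RCase N z := by
  intro ℓ hℓ h5 hℓN A hA k hk hℓk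
  by_contra hne
  obtain ⟨C, hC⟩ : ∃ C : Divisor Kbar (FN N), C = pt z - pt (cInf N) := ⟨_, rfl⟩
  have hCdeg : Divisor.degree C = 0 := by rw [hC]; exact degree_pt_sub_pt _ _
  have hcc : cc N z = cls C := by rw [hC]; rfl
  have hdegs : ∀ n : ℤ, Divisor.degree (n • C) = 0 := fun n => by
    rw [map_zsmul, hCdeg, smul_zero]
  obtain ⟨D, hDdeg, hD, hOne⟩ := H ℓ hℓ h5 hℓN A hA _ hk
  -- `k C - D = div g`
  have h1 : cls (k • C - D) = 0 := by
    rw [cls_sub (hdegs k) hDdeg, cls_zsmul hCdeg, ← hcc, hD, sub_self]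
  obtain ⟨g, hg⟩ := mem_principal_iff.1
    ((cls_eq_zero_iff (by rw [map_sub, hdegs, hDdeg, sub_zero])).1 h1)
  -- `ℓ k C = div h`
  have h2 : cls (((ℓ : ℤ) * k) • C) = 0 := by
    rw [cls_zsmul hCdeg, mul_smul, ← hcc, natCast_zsmul]
    exact hℓk
  obtain ⟨h, hh⟩ := mem_principal_iff.1 ((cls_eq_zero_iff (hdegs _)).1 h2)
  -- `ℓ D = div (h / g^ℓ)`
  have hf : IsDivOf ((ℓ : ℤ) • D) (h * (g ^ (ℓ : ℤ))⁻¹) := by
    have h3 := isDivOf_mul hh (isDivOf_inv (isDivOf_zpow hg ℓ))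
    have h4 : ((ℓ : ℤ) * k) • C + -((ℓ : ℤ) • (k • C - D)) = (ℓ : ℤ) • D := by
      rw [smul_sub, mul_smul]
      abel
    rwa [h4] at h3
  have hfOne : II.IsOne A N (h * (g ^ (ℓ : ℤ))⁻¹) :=
    hOne ℓ _ hf.1 (fun v => by rw [← hf.2 v, Finsupp.smul_apply, smul_eq_mul])
  have hLf := hasLam_of_isOne hfOne
  obtain ⟨tg, htg⟩ := exists_hasLam hℓ hA g hg.1
  obtain ⟨th, hth⟩ := exists_hasLam hℓ hA h hh.1
  have hth0 : th = 0 := by
    have h3 : HasLam A ((h * (g ^ (ℓ : ℤ))⁻¹ : FN N) : LaurentSeries Kbar)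
        (th + -((ℓ : ℤ) • tg)) := by
      rw [coe_mul_fn, coe_inv_fn, coe_zpow_fn]
      exact hth.mul (htg.zpow ℓ).inv
    have h4 := h3.unique hLf
    rw [nsmul_eq_zero_of_dvd hA dvd_rfl, neg_zero, add_zero] at h4
    exact h4
  -- the gcd
  obtain ⟨n1, hn1⟩ : ∃ n1 : ℤ, n1 = (N : ℤ) - 1 := ⟨_, rfl⟩
  have hn10 : n1 ≠ 0 := by
    have : (1 : ℤ) < N := by exact_mod_cast hN
    omega
  have huN : IsDivOf (n1 • C) (uN N) := by
    have h3 := hz.isDivOf_uN hN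
    rw [← natCast_zsmul, Nat.cast_sub hN.le, Nat.cast_one, ← hn1, ← hC] at h3
    exact h3
  obtain ⟨d, hd⟩ : ∃ d : ℤ, d = (Int.gcd ((ℓ : ℤ) * k) n1 : ℤ) := ⟨_, rfl⟩
  have hbez : d = (ℓ : ℤ) * k * Int.gcdA ((ℓ : ℤ) * k) n1 + n1 * Int.gcdB ((ℓ : ℤ) * k) n1 := by
    rw [hd]
    exact Int.gcd_eq_gcd_ab _ _
  obtain ⟨s, hs⟩ : d ∣ (ℓ : ℤ) * k := by rw [hd]; exact Int.gcd_dvd_left _ _
  obtain ⟨m, hm⟩ : d ∣ n1 := by rw [hd]; exact Int.gcd_dvd_right _ _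
  obtain ⟨u, hudef⟩ : ∃ u : FN N, u = h ^ (Int.gcdA ((ℓ : ℤ) * k) n1) *
      uN N ^ (Int.gcdB ((ℓ : ℤ) * k) n1) := ⟨_, rfl⟩
  have hu : IsDivOf (d • C) u := by
    have h3 := isDivOf_mul (isDivOf_zpow hh (Int.gcdA ((ℓ : ℤ) * k) n1))
      (isDivOf_zpow huN (Int.gcdB ((ℓ : ℤ) * k) n1))
    rw [smul_smul, smul_smul, ← add_smul, ← hudef] at h3
    have h4 : Int.gcdA ((ℓ : ℤ) * k) n1 * ((ℓ : ℤ) * k) + Int.gcdB ((ℓ : ℤ) * k) n1 * n1 = d := by
      rw [hbez]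
      ring
    rwa [h4] at h3
  -- `ℓ ∤ s`
  have hls : ¬ (ℓ : ℤ) ∣ s := by
    rintro ⟨s', rfl⟩
    have hk' : k = d * s' := by
      have hℓ0 : (ℓ : ℤ) ≠ 0 := by exact_mod_cast hℓ.ne_zero
      apply mul_left_cancel₀ hℓ0
      rw [hs]
      ring
    apply hne
    have hdc : d • cc N z = 0 := by
      rw [hcc, ← cls_zsmul hCdeg, cls_eq_zero_iff (hdegs d)]
      exact mem_principal_iff.2 ⟨u, hu⟩
    rw [hk', mul_comm, mul_smul, hdc, smul_zero]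
  obtain ⟨tu, htu⟩ := exists_hasLam hℓ hA u hu.1
  -- `h = c u^s`
  obtain ⟨c, hc, hhc⟩ := exists_const_of_isDivOf hh (by
    have h3 := isDivOf_zpow hu s
    rwa [smul_smul, mul_comm s d, ← hs] at h3)
  have htu0 : tu = 0 := by
    have h3 : HasLam A ((algebraMap Kbar (FN N) c * u ^ s : FN N) : LaurentSeries Kbar)
        (0 + s • tu) := by
      rw [coe_mul_fn, coe_const_fn, coe_zpow_fn]
      exact (HasLam.const hc).mul (htu.zpow s)
    rw [← hhc] at h3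
    have h4 := h3.unique hth
    rw [hth0, zero_add] at h4
    exact eq_zero_of_zsmul_eq_zero hℓ hA hls h4
  -- `u_N = c' u^m`
  obtain ⟨c', hc', huc⟩ := exists_const_of_isDivOf huN (by
    have h3 := isDivOf_zpow hu m
    rwa [smul_smul, mul_comm m d, ← hm] at h3)
  have h3 : HasLam A ((algebraMap Kbar (FN N) c' * u ^ m : FN N) : LaurentSeries Kbar)
      (0 + m • tu) := by
    rw [coe_mul_fn, coe_const_fn, coe_zpow_fn]
    exact (HasLam.const hc').mul (htu.zpow m)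
  rw [← huc, htu0, smul_zero, add_zero] at h3
  exact not_hasLam_uN_zero hℓ h5 hA hN h3

end Main

end Fermat.Agent.S15.A.K6x

end
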