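/-
S15, block A, K6 (`RCase`), second team (helper193): `RCase N z` from K6 core + the A-RED export
`Red.exists_isOne`.
-/
import Fermat.Agent.S15.A.Lam.Alt193.RCase
import Fermat.Agent.S15.A.Red.Main

set_option autoImplicit false

namespace Fermat.Agent.S15.A.K6x

open ModularCurve AlgebraicCurve Fermat.Agent.S24 Fermat.Agent.S27

variable {N : ℕ} [NeZero N]

theorem nnIsOne (hN : N.Prime) {z : Place Kbar (FN N)} (hz : IsCusp0 N z) : NNIsOne N :=
  fun _ hℓ h5 hℓN _ hA x hx => Red.exists_isOne hN hz hℓ h5 hℓN hA x hx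

/-- **K6**: the contract `RCase N z`. -/
theorem rCase (hN : N.Prime) {z : Place Kbar (FN N)} (hz : IsCusp0 N z) : RCase N z :=
  rCase_of_nnIsOne hN.one_lt hz (nnIsOne hN hz)

end Fermat.Agent.S15.A.K6x
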